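import Fermat.Agent.BurgessGeneral.Inequality
import Fermat.Agent.FermatCount.Basic
import Mathlib.Analysis.SpecialFunctions.Pow.Asymptotics

/-!
# Power saving and primitive roots in short intervals

`n` is a primitive root iff it is no `q`-th power for `q ∣ p - 1`; inclusion and exclusion turns
this into characters killed by the squarefree divisors of `p - 1`, and `4 ^ ω (p - 1) ≤ C p ^ η`.
-/

set_option autoImplicit false

noncomputable section

namespace FA.BurgessGeneral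

open Finset Filter FA.FermatCount
open scoped Topology

theorem eventually_norm_windowSumC_le {δ : ℝ} (hδ : 0 < δ) :
    ∃ η : ℝ, 0 < η ∧ ∀ᶠ p : ℕ in atTop, ∀ [Fact p.Prime] (χ : MulChar (ZMod p) ℂ), χ ≠ 1 →
      ∀ M N : ℕ, (p : ℝ) ^ (1 / 4 + δ) ≤ N → ‖windowSumC χ M N‖ ≤ N * (p : ℝ) ^ (-η) := by
  obtain ⟨r, hr⟩ : ∃ r : ℕ, r = ⌈1 / δ⌉₊ + 1 := ⟨_, rfl⟩
  have hr1 : 1 ≤ r := by omega
  have hr0 : (0 : ℝ) < r := Nat.cast_pos.2 (by omega)
  have hrδ : 1 ≤ δ * r := by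
    have h1 : 1 / δ ≤ (r : ℝ) :=
      (Nat.le_ceil _).trans (Nat.cast_le.2 (by omega))
    rw [div_le_iff₀ hδ] at h1
    linarith
  obtain ⟨η, hη⟩ : ∃ η : ℝ, η = δ / (4 * r) := ⟨_, rfl⟩
  have hη0 : 0 < η := hη ▸ by positivity
  refine ⟨η, hη0, ?_⟩
  have hlim : ∀ᶠ p : ℕ in atTop, burgessConst r * ((1 + Real.log p) * (p : ℝ) ^ (-η)) ≤ 1 := by
    have h1 : Tendsto (fun x : ℝ => (1 + Real.log x) * x ^ (-η)) atTop (𝓝 0) := by
      have h0 : ∀ n : ℕ, Tendsto (fun x : ℝ => Real.log x ^ (n : ℝ) / x ^ η) atTop (𝓝 0) :=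
        fun n => (isLittleO_log_rpow_rpow_atTop _ hη0).tendsto_div_nhds_zero
      have h : Tendsto (fun x : ℝ => Real.log x ^ ((0 : ℕ) : ℝ) / x ^ η +
          Real.log x ^ ((1 : ℕ) : ℝ) / x ^ η) atTop (𝓝 0) := by simpa using (h0 0).add (h0 1)
      refine h.congr' ?_
      filter_upwards [eventually_gt_atTop 0] with x hx
      rw [Real.rpow_natCast, Real.rpow_natCast, Real.rpow_neg hx.le]
      ring
    have h2 := (h1.comp tendsto_natCast_atTop_atTop).const_mul (burgessConst r)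
    rw [mul_zero] at h2
    exact h2.eventually (eventually_le_nhds one_pos)
  filter_upwards [hlim, eventually_ge_atTop 1] with p hp hp1
  intro _ χ hχ M N hN
  have hp0 : (0 : ℝ) < p := Nat.cast_pos.2 hp1
  have hN0 : (0 : ℝ) < N := (Real.rpow_pos_of_pos hp0 _).trans_le hN
  have hG : burgessFn r p N ≤ N * (p : ℝ) ^ (-(2 * η)) := by
    have h1 : (p : ℝ) ^ (((r : ℝ) + 1) / (4 * (r : ℝ) ^ 2)) ≤
        (N : ℝ) ^ (1 / (r : ℝ)) * (p : ℝ) ^ (-(2 * η)) := by
      refine le_trans ?_ (mul_le_mul_of_nonneg_right (Real.rpow_le_rpow (Real.rpow_nonneg hp0.le _)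
        hN (by positivity)) (by positivity))
      rw [← Real.rpow_mul hp0.le, ← Real.rpow_add hp0]
      refine Real.rpow_le_rpow_of_exponent_le (Nat.one_le_cast.2 hp1) ?_
      have e : (1 / 4 + δ) * (1 / (r : ℝ)) + -(2 * (δ / (4 * r))) =
          ((r : ℝ) + 2 * (δ * r)) / (4 * (r : ℝ) ^ 2) := by
        field_simp
        ring
      rw [hη, e]
      gcongr
      linarith
    calc burgessFn r p N = (N : ℝ) ^ (1 - 1 / (r : ℝ)) *
          (p : ℝ) ^ (((r : ℝ) + 1) / (4 * (r : ℝ) ^ 2)) := rfl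
      _ ≤ (N : ℝ) ^ (1 - 1 / (r : ℝ)) * ((N : ℝ) ^ (1 / (r : ℝ)) * (p : ℝ) ^ (-(2 * η))) :=
          mul_le_mul_of_nonneg_left h1 (Real.rpow_nonneg hN0.le _)
      _ = _ := by rw [← mul_assoc, ← Real.rpow_add hN0, sub_add_cancel, Real.rpow_one]
  have hC : 0 ≤ burgessConst r := by rw [burgessConst]; positivity
  refine (norm_windowSumC_le_burgess hχ hr1 M N).trans ?_
  refine (mul_le_mul_of_nonneg_left (mul_le_mul_of_nonneg_left hG
    (by linarith [one_le_log_factor p])) hC).trans ?_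
  rw [show -(2 * η) = -η + -η by ring, Real.rpow_add hp0]
  have h2 := mul_le_mul_of_nonneg_right hp (show (0 : ℝ) ≤ N * (p : ℝ) ^ (-η) by positivity)
  linarith

theorem exists_four_pow_card_primeFactors_le {η : ℝ} (hη : 0 < η) :
    ∃ C : ℝ, 0 < C ∧ ∀ m : ℕ, m ≠ 0 → (4 : ℝ) ^ m.primeFactors.card ≤ C * (m : ℝ) ^ η := by
  obtain ⟨Q, hQ⟩ : ∃ Q : ℕ, Q = ⌈(4 : ℝ) ^ (1 / η)⌉₊ := ⟨_, rfl⟩
  refine ⟨4 ^ (Q + 1), by positivity, fun m hm => ?_⟩
  have hbig : ∀ q : ℕ, Q ≤ q → (4 : ℝ) ≤ (q : ℝ) ^ η := fun q hq => by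
    have h1 : (4 : ℝ) ^ (1 / η) ≤ q := (Nat.le_ceil _).trans (Nat.cast_le.2 (hQ ▸ hq))
    refine le_trans (le_of_eq ?_) (Real.rpow_le_rpow (by positivity) h1 hη.le)
    rw [← Real.rpow_mul (by norm_num), one_div_mul_cancel hη.ne', Real.rpow_one]
  have h1 : (4 : ℝ) ^ m.primeFactors.card ≤
      ∏ q ∈ m.primeFactors, (if q < Q then 4 else 1) * (q : ℝ) ^ η := by
    rw [← prod_const]
    refine prod_le_prod (fun q _ => by norm_num) fun q hq => ?_
    have hq1 : (1 : ℝ) ≤ q := Nat.one_le_cast.2 (Nat.prime_of_mem_primeFactors hq).one_lt.le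
    split_ifs with h
    · exact le_mul_of_one_le_right (by norm_num) (Real.one_le_rpow hq1 hη.le)
    · rw [one_mul]
      exact hbig q (not_lt.1 h)
  refine h1.trans ?_
  rw [prod_mul_distrib]
  refine mul_le_mul ?_ ?_ (prod_nonneg fun q _ => Real.rpow_nonneg (Nat.cast_nonneg _) _)
    (by positivity)
  · rw [prod_ite, prod_const_one, mul_one, prod_const]
    refine pow_le_pow_right₀ (by norm_num) ((card_le_card (t := range Q) fun q hq => ?_).trans
      (by simp))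
    exact mem_range.2 (mem_filter.1 hq).2
  · rw [Real.finsetProd_rpow _ _ fun q _ => Nat.cast_nonneg q, ← Nat.cast_prod]
    exact Real.rpow_le_rpow (Nat.cast_nonneg _)
      (Nat.cast_le.2 (Nat.le_of_dvd (Nat.pos_of_ne_zero hm) (Nat.prod_primeFactors_dvd m))) hη.le

variable {p : ℕ} [Fact p.Prime]

theorem exists_pow_eq_of_pow_div_eq_one {a : ZMod p} (ha : a ≠ 0) {d : ℕ} (hd : d ∣ p - 1)
    (h : a ^ ((p - 1) / d) = 1) : ∃ x : ZMod p, x ^ d = a := by
  have hp := (Fact.out : p.Prime).one_lt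
  obtain ⟨w, hw⟩ := IsCyclic.exists_generator (α := (ZMod p)ˣ)
  obtain ⟨k, hk⟩ := mem_powers_iff_mem_zpowers.2 (hw (Units.mk0 a ha))
  have hwo : orderOf w = p - 1 := by
    rw [orderOf_eq_card_of_forall_mem_zpowers hw, Nat.card_eq_fintype_card, ZMod.card_units]
  have hk' : w ^ k = Units.mk0 a ha := hk
  have h1 : w ^ (k * ((p - 1) / d)) = 1 := by
    rw [pow_mul, hk']
    exact Units.ext (by simpa using h)
  obtain ⟨e, he⟩ := hd
  have hd0 : 0 < d := Nat.pos_of_mul_pos_right (show 0 < d * e by omega)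
  rw [← orderOf_dvd_iff_pow_eq_one, hwo, he, Nat.mul_div_cancel_left _ hd0] at h1
  obtain ⟨j, rfl⟩ := (Nat.mul_dvd_mul_iff_right (Nat.pos_of_mul_pos_left
    (show 0 < d * e by omega))).1 h1
  refine ⟨(w : ZMod p) ^ j, ?_⟩
  rw [← pow_mul, mul_comm j, ← Units.val_pow_eq_pow_val, hk', Units.val_mk0]

/-- `n` is no `q`-th power for any prime `q ∣ p - 1` and not zero. -/
def NoPrimePower (a : ZMod p) : Prop :=
  a ≠ 0 ∧ ∀ q ∈ (p - 1).primeFactors, ¬ ∃ x : ZMod p, x ^ q = a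

theorem orderOf_eq_of_noPrimePower {a : ZMod p} (ha : NoPrimePower a) : orderOf a = p - 1 := by
  have hp := (Fact.out : p.Prime).one_lt
  refine orderOf_eq_of_pow_and_pow_div_prime (by omega) (ZMod.pow_card_sub_one_eq_one ha.1)
    fun q hq hqd h => ha.2 q ?_ (exists_pow_eq_of_pow_div_eq_one ha.1 hqd h)
  exact Nat.mem_primeFactors.2 ⟨hq, hqd, by omega⟩

theorem exists_pow_prod_eq {a : ZMod p} (ha : a ≠ 0) {T : Finset ℕ}
    (hT : ∀ q ∈ T, q.Prime) (h : ∀ q ∈ T, ∃ x : ZMod p, x ^ q = a) :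
    ∃ x : ZMod p, x ^ (∏ q ∈ T, q) = a := by
  induction T using Finset.induction with
  | empty => exact ⟨a, by simp⟩
  | insert q T hq ih =>
    obtain ⟨x, hx⟩ := h q (mem_insert_self _ _)
    obtain ⟨y, hy⟩ := ih (fun i hi => hT i (mem_insert_of_mem hi))
      fun i hi => h i (mem_insert_of_mem hi)
    have hcop : Nat.Coprime q (∏ i ∈ T, i) := Nat.Coprime.prod_right fun i hi =>
      (Nat.coprime_primes (hT q (mem_insert_self _ _)) (hT i (mem_insert_of_mem hi))).2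
        fun e => hq (e ▸ hi)
    obtain ⟨α, β, hαβ⟩ := Nat.isCoprime_iff_coprime.2 hcop
    obtain ⟨d, hd⟩ : ∃ d, d = ∏ i ∈ T, i := ⟨_, rfl⟩
    rw [← hd] at hy hαβ
    refine ⟨x ^ β * y ^ α, ?_⟩
    rw [prod_insert hq, ← hd, ← zpow_natCast, mul_zpow, ← zpow_mul, ← zpow_mul, Nat.cast_mul,
      show β * ((q : ℤ) * (d : ℤ)) = (q : ℤ) * (β * d) by ring,
      show α * ((q : ℤ) * (d : ℤ)) = (d : ℤ) * (α * q) by ring, zpow_mul x (q : ℤ) (β * d),
      zpow_mul y (d : ℤ) (α * q), zpow_natCast,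
      zpow_natCast, hx, hy, ← zpow_add₀ ha, add_comm, hαβ, zpow_one]

theorem card_roots_div {d : ℕ} (hd : d ∣ p - 1) (hd0 : 0 < d) (a : ZMod p) (ha : a ≠ 0)
    [Decidable (∃ x : ZMod p, x ^ d = a)] :
    (∑ χ ∈ killed (ZMod p) d, χ a) / (d : ℂ) = if ∃ x : ZMod p, x ^ d = a then 1 else 0 := by
  split_ifs with h
  · obtain ⟨x, hx⟩ := h
    have hx0 : x ≠ 0 := fun e => ha (by rw [← hx, e, zero_pow hd0.ne'])
    rw [sum_congr rfl fun χ hχ => show χ a = (1 : ℂ) by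
      rw [← hx, map_pow, ← MulChar.pow_apply' _ hd0.ne', mem_killed.1 hχ,
        MulChar.one_apply (Ne.isUnit hx0)], sum_const, card_killed, ZMod.card,
      Nat.gcd_eq_left hd, nsmul_one, div_self (Nat.cast_ne_zero.2 hd0.ne')]
  · rw [← card_roots_eq_sum hd0 ha, Finset.card_eq_zero.2
      (eq_empty_of_forall_notMem fun x hx => h ⟨x, FA.FermatCount.mem_roots.1 hx⟩), Nat.cast_zero,
      zero_div]

open scoped Classical in
theorem indicator_eq (a : ZMod p) :
    (if NoPrimePower a then (1 : ℂ) else 0) = ∑ T ∈ (p - 1).primeFactors.powerset,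
      (-1 : ℂ) ^ T.card * ((∑ χ ∈ killed (ZMod p) (∏ q ∈ T, q), χ a) / ((∏ q ∈ T, q : ℕ) : ℂ)) := by
  rcases eq_or_ne a 0 with rfl | ha
  · simp [NoPrimePower, MulChar.map_zero]
  have hprime : ∀ T ∈ (p - 1).primeFactors.powerset, ∀ q ∈ T, q.Prime := fun T hT q hq =>
    Nat.prime_of_mem_primeFactors (mem_powerset.1 hT hq)
  have hdvd : ∀ T ∈ (p - 1).primeFactors.powerset, (∏ q ∈ T, q) ∣ p - 1 := fun T hT =>
    (prod_dvd_prod_of_subset _ _ _ (mem_powerset.1 hT)).trans (Nat.prod_primeFactors_dvd _)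
  rw [sum_congr rfl fun T hT => by
    rw [card_roots_div (hdvd T hT) (prod_pos fun q hq => (hprime T hT q hq).pos) a ha,
      show (if ∃ x : ZMod p, x ^ (∏ q ∈ T, q) = a then (1 : ℂ) else 0) =
          ∏ q ∈ T, if ∃ x : ZMod p, x ^ q = a then (1 : ℂ) else 0 by
        rw [prod_boole]
        refine if_congr ⟨?_, exists_pow_prod_eq ha (hprime T hT)⟩ rfl rfl
        rintro ⟨x, hx⟩ q hq
        obtain ⟨e, he⟩ := dvd_prod_of_mem (fun i => i) hq
        exact ⟨x ^ e, by rw [← pow_mul, mul_comm, ← he, hx]⟩,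
      ← prod_neg]]
  rw [← prod_one_add]
  by_cases h : NoPrimePower a
  · rw [if_pos h, prod_eq_one fun q hq => by rw [if_neg (h.2 q hq), neg_zero, add_zero]]
  · rw [if_neg h]
    simp only [NoPrimePower, not_and, not_forall, not_not] at h
    obtain ⟨q, hq, hx⟩ := h ha
    exact (prod_eq_zero hq (by rw [if_pos hx, add_neg_cancel])).symm

theorem exists_noPrimePower {M N : ℕ} {E : ℝ} (hp : 4 ≤ p) (hN : 4 ≤ N) (hE0 : 0 ≤ E)
    (hE : ∀ χ : MulChar (ZMod p) ℂ, χ ≠ 1 → ‖windowSumC χ M N‖ ≤ E)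
    (hsmall : (4 : ℝ) ^ (p - 1).primeFactors.card * E < N / 2) :
    ∃ n ∈ Ioc M (M + N), NoPrimePower (n : ZMod p) := by
  classical
  by_contra! hno
  obtain ⟨Q, hQ⟩ : ∃ Q, Q = (p - 1).primeFactors := ⟨_, rfl⟩
  rw [← hQ] at hsmall
  obtain ⟨c, hc⟩ : ∃ c : Finset ℕ → ℂ,
      c = fun T => (-1 : ℂ) ^ T.card / ((∏ q ∈ T, q : ℕ) : ℂ) := ⟨_, rfl⟩
  have h0 : ∑ T ∈ Q.powerset, c T * ∑ χ ∈ killed (ZMod p) (∏ q ∈ T, q), windowSumC χ M N = 0 := by
    calc ∑ T ∈ Q.powerset, c T * ∑ χ ∈ killed (ZMod p) (∏ q ∈ T, q), windowSumC χ M N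
        = ∑ n ∈ Ioc M (M + N), (if NoPrimePower (n : ZMod p) then (1 : ℂ) else 0) := by
          simp only [indicator_eq, windowSumC, mul_sum, sum_div, hc, ← hQ]
          conv_rhs => rw [sum_comm]
          refine sum_congr rfl fun T _ => ?_
          rw [sum_comm]
          exact sum_congr rfl fun n _ => sum_congr rfl fun χ _ => by ring
      _ = 0 := sum_eq_zero fun n hn => if_neg (hno n hn)
  have hT : ∀ T ∈ Q.powerset, 1 ≤ ∏ q ∈ T, q ∧ (∏ q ∈ T, q) ∣ p - 1 := fun T hT => by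
    rw [hQ, mem_powerset] at hT
    exact ⟨prod_pos fun q hq => (Nat.prime_of_mem_primeFactors (hT hq)).pos,
      (prod_dvd_prod_of_subset _ _ _ hT).trans (Nat.prod_primeFactors_dvd _)⟩
  have herr : ∀ T ∈ Q.powerset,
      ‖c T * ∑ χ ∈ (killed (ZMod p) (∏ q ∈ T, q)).erase 1, windowSumC χ M N‖ ≤ E := by
    intro T hT'
    obtain ⟨hd, hdd⟩ := hT T hT'
    have hd' : (0 : ℝ) < ((∏ q ∈ T, q : ℕ) : ℝ) := Nat.cast_pos.2 hd
    rw [norm_mul, hc, norm_div, norm_pow, norm_neg, norm_one, one_pow, Complex.norm_natCast,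
      one_div, inv_mul_le_iff₀ hd']
    refine (norm_sum_le_of_le _ fun χ hχ => hE χ (mem_erase.1 hχ).1).trans ?_
    rw [sum_const, nsmul_eq_mul]
    refine mul_le_mul_of_nonneg_right (Nat.cast_le.2 ((card_le_card (erase_subset _ _)).trans ?_))
      hE0
    rw [card_killed, ZMod.card, Nat.gcd_eq_left hdd]
  have hmain : windowSumC (1 : MulChar (ZMod p) ℂ) M N * ∏ q ∈ Q, (1 - 1 / (q : ℂ)) =
      -∑ T ∈ Q.powerset,
        c T * ∑ χ ∈ (killed (ZMod p) (∏ q ∈ T, q)).erase 1, windowSumC χ M N := by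
    rw [eq_neg_iff_add_eq_zero, ← h0]
    simp only [sub_eq_add_neg]
    rw [prod_one_add, mul_sum, ← sum_add_distrib]
    refine sum_congr rfl fun T _ => ?_
    conv_rhs => rw [← add_sum_erase _ _ one_mem_killed, mul_add, mul_comm (c T)]
    rw [hc]
    simp only
    rw [prod_neg, prod_div_distrib, prod_const_one, ← Nat.cast_prod]
    ring
  have hone : (N : ℝ) / 2 ≤ ‖windowSumC (1 : MulChar (ZMod p) ℂ) M N‖ := by
    have h1 : windowSumC (1 : MulChar (ZMod p) ℂ) M N =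
        (((Ioc M (M + N)).filter fun n => ¬ p ∣ n).card : ℂ) := by
      rw [windowSumC, card_filter, Nat.cast_sum]
      refine sum_congr rfl fun n _ => ?_
      split_ifs with h
      · rw [(ZMod.natCast_eq_zero_iff n p).2 h, MulChar.map_zero, Nat.cast_zero]
      · rw [Nat.cast_one, MulChar.one_apply (Ne.isUnit fun e =>
          h ((ZMod.natCast_eq_zero_iff n p).1 e))]
    rw [h1, Complex.norm_natCast]
    have h2 := card_filter_add_card_filter_not (s := Ioc M (M + N)) (fun n => p ∣ n)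
    rw [Nat.card_Ioc, Nat.add_sub_cancel_left] at h2
    have h3 : ((Ioc M (M + N)).filter fun n => p ∣ n).card ≤ N / p + 1 := by
      rw [← card_range (N / p + 1)]
      refine card_le_card_of_injOn (fun n => (n - M - 1) / p) (fun n hn => ?_) fun x hx y hy h => ?_
      · simp only [mem_coe, mem_filter, mem_Ioc] at hn
        rw [mem_coe, mem_range]
        exact Nat.lt_succ_of_le (Nat.div_le_div_right (by omega))
      · simp only [mem_coe, mem_filter, mem_Ioc] at hx hy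
        obtain ⟨⟨hx1, -⟩, i, rfl⟩ := hx
        obtain ⟨⟨hy1, -⟩, j, rfl⟩ := hy
        simp only at h
        have e1 := Nat.div_add_mod (p * i - M - 1) p
        have e2 := Nat.div_add_mod (p * j - M - 1) p
        have m1 := Nat.mod_lt (p * i - M - 1) (show p > 0 by omega)
        have m2 := Nat.mod_lt (p * j - M - 1) (show p > 0 by omega)
        rw [h] at e1
        rcases lt_trichotomy i j with hij | hij | hij
        · have := Nat.mul_le_mul_left p hij
          rw [Nat.succ_eq_add_one, mul_add, mul_one] at this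
          omega
        · rw [hij]
        · have := Nat.mul_le_mul_left p hij
          rw [Nat.succ_eq_add_one, mul_add, mul_one] at this
          omega
    have h4 : N / p ≤ N / 4 := Nat.div_le_div_left hp (by norm_num)
    have h5 : N ≤ 2 * ((Ioc M (M + N)).filter fun n => ¬ p ∣ n).card := by omega
    have h6 : (N : ℝ) ≤ ((2 * ((Ioc M (M + N)).filter fun n => ¬ p ∣ n).card : ℕ) : ℝ) :=
      Nat.cast_le.2 h5
    push_cast at h6
    linarith
  have hprod : ((2 : ℝ)⁻¹) ^ Q.card ≤ ‖∏ q ∈ Q, (1 - 1 / (q : ℂ))‖ := by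
    rw [norm_prod, ← prod_const]
    refine prod_le_prod (fun q _ => by norm_num) fun q hq => ?_
    have hq2 : (2 : ℝ) ≤ q :=
      Nat.ofNat_le_cast.2 (Nat.prime_of_mem_primeFactors (hQ ▸ hq)).two_le
    rw [show (1 : ℂ) - 1 / (q : ℂ) = (((1 : ℝ) - 1 / (q : ℝ) : ℝ) : ℂ) by push_cast; rfl,
      Complex.norm_real, Real.norm_eq_abs]
    refine le_trans ?_ (le_abs_self _)
    have : 1 / (q : ℝ) ≤ 1 / 2 := by gcongr
    linarith
  have h2 := congrArg norm hmain
  rw [norm_neg, norm_mul] at h2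
  have h3 := (mul_le_mul hone hprod (by positivity) (norm_nonneg _)).trans
    (h2.le.trans (norm_sum_le_of_le _ herr))
  rw [sum_const, card_powerset, nsmul_eq_mul, inv_pow, ← div_eq_mul_inv,
    div_le_iff₀ (by positivity)] at h3
  push_cast at h3
  rw [show (4 : ℝ) = 2 * 2 by norm_num, mul_pow] at hsmall
  linarith

theorem eventually_exists_primitiveRoot {ε : ℝ} (hε : 0 < ε) :
    ∀ᶠ p : ℕ in atTop, p.Prime → ∀ M N : ℕ, (p : ℝ) ^ (1 / 4 + ε) ≤ N →
      ∃ n ∈ Ioc M (M + N), orderOf (n : ZMod p) = p - 1 := by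
  obtain ⟨η, hη, hsave⟩ := eventually_norm_windowSumC_le hε
  obtain ⟨C, hC0, hC⟩ := exists_four_pow_card_primeFactors_le (half_pos hη)
  have h1 : ∀ᶠ p : ℕ in atTop, 2 * C < (p : ℝ) ^ (η / 2) :=
    ((tendsto_rpow_atTop (half_pos hη)).comp tendsto_natCast_atTop_atTop).eventually_gt_atTop _
  have h2 : ∀ᶠ p : ℕ in atTop, (4 : ℝ) ≤ (p : ℝ) ^ (1 / 4 + ε) :=
    ((tendsto_rpow_atTop (by positivity)).comp tendsto_natCast_atTop_atTop).eventually_ge_atTop _
  filter_upwards [hsave, h1, h2, eventually_ge_atTop 4] with p hp hp1 hp2 hp4 hprime M N hN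
  have := Fact.mk hprime
  have hp0 : (0 : ℝ) < p := Nat.cast_pos.2 (by omega)
  have hN4 : 4 ≤ N := by exact_mod_cast hp2.trans hN
  refine (exists_noPrimePower (M := M) (E := N * (p : ℝ) ^ (-η)) hp4 hN4
    (by positivity) (fun χ hχ => hp χ hχ M N hN) ?_).imp
      fun n h => ⟨h.1, orderOf_eq_of_noPrimePower h.2⟩
  have h3 : ((p - 1 : ℕ) : ℝ) ≤ p := Nat.cast_le.2 (Nat.sub_le _ _)
  have h4 := (hC (p - 1) (by omega)).trans (mul_le_mul_of_nonneg_left
    (Real.rpow_le_rpow (Nat.cast_nonneg _) h3 (half_pos hη).le) hC0.le)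
  have hN0 : (0 : ℝ) < N := Nat.cast_pos.2 (by omega)
  refine (mul_le_mul_of_nonneg_right h4 (by positivity)).trans_lt ?_
  have e : (p : ℝ) ^ (η / 2) * (p : ℝ) ^ (-η) = ((p : ℝ) ^ (η / 2))⁻¹ := by
    rw [← Real.rpow_neg hp0.le, ← Real.rpow_add hp0]
    congr 1
    ring
  calc C * (p : ℝ) ^ (η / 2) * (N * (p : ℝ) ^ (-η))
      = C * N * ((p : ℝ) ^ (η / 2) * (p : ℝ) ^ (-η)) := by ring
    _ = C * N / (p : ℝ) ^ (η / 2) := by rw [e, ← div_eq_mul_inv]
    _ < N / 2 := by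
        rw [div_lt_iff₀ (by positivity)]
        have := mul_lt_mul_of_pos_left hp1 hN0
        linarith

end FA.BurgessGeneral
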