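import Fermat.Agent.BurgessGeneral.Sums
import Mathlib.Analysis.SpecialFunctions.Pow.Real

/-!
# Burgess's inequality

`‖∑_{M < n ≤ M + N} χ n‖ ≤ C_r N ^ (1 - 1/r) p ^ ((r + 1) / (4 r ^ 2)) (1 + log p)`, by induction
on `N`: the shifts by `a b ≤ N / 16` cost at most half of the bound.
-/

set_option autoImplicit false

noncomputable section

namespace FA.BurgessGeneral

open Finset FA.Burgess

/-- The constant. -/
def burgessConst (r : ℕ) : ℝ := 256 * ((r : ℝ) ^ (2 * r) + 2 * r) + 32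

/-- `N ^ (1 - 1/r) p ^ ((r + 1) / (4 r ^ 2))`. -/
def burgessFn (r p : ℕ) (x : ℝ) : ℝ :=
  x ^ (1 - 1 / (r : ℝ)) * (p : ℝ) ^ (((r : ℝ) + 1) / (4 * (r : ℝ) ^ 2))

theorem burgessFn_nonneg (r p : ℕ) {x : ℝ} (hx : 0 ≤ x) : 0 ≤ burgessFn r p x :=
  mul_nonneg (Real.rpow_nonneg hx _) (Real.rpow_nonneg (Nat.cast_nonneg _) _)

theorem burgessFn_mono {r : ℕ} (hr : 1 ≤ r) (p : ℕ) {x y : ℝ} (hx : 0 ≤ x) (h : x ≤ y) :
    burgessFn r p x ≤ burgessFn r p y := by
  refine mul_le_mul_of_nonneg_right (Real.rpow_le_rpow hx h ?_)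
    (Real.rpow_nonneg (Nat.cast_nonneg _) _)
  rw [sub_nonneg, div_le_one (Nat.cast_pos.2 hr)]
  exact Nat.one_le_cast.2 hr

theorem burgessFn_pow {r : ℕ} (hr : 1 ≤ r) (p : ℕ) {x : ℝ} (hx : 0 ≤ x) :
    burgessFn r p x ^ (2 * r) =
      x ^ (2 * r - 2) * (p : ℝ) ^ ((1 : ℝ) / 2 + 1 / (2 * (r : ℝ))) := by
  have hr0 : (r : ℝ) ≠ 0 := Nat.cast_ne_zero.2 (by omega)
  rw [burgessFn, mul_pow, ← Real.rpow_natCast, ← Real.rpow_natCast _ (2 * r),
    ← Real.rpow_mul hx, ← Real.rpow_mul (Nat.cast_nonneg _), ← Real.rpow_natCast x (2 * r - 2),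
    Nat.cast_sub (by omega)]
  push_cast
  congr 2
  · field_simp
  · field_simp
    ring

variable {p : ℕ} [Fact p.Prime] {χ : MulChar (ZMod p) ℂ}

theorem one_le_log_factor (p : ℕ) : 1 ≤ 1 + Real.log p := by linarith [Real.log_natCast_nonneg p]

/-- The step: the averaged sum is small. -/
theorem mult_shortSum_le (hχ : χ ≠ 1) {r A B M N : ℕ} (hr : 1 ≤ r) (hA : 1 ≤ A) (hAN : A ≤ N)
    (hAp : A < p) (hAN2 : 2 * A * N < p) (hBp : B < p) (hB1 : 1 ≤ B)
    (hBu : (p : ℝ) ^ (1 / (2 * (r : ℝ))) ≤ B)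
    (hNA : (N : ℝ) ≤ 64 * (p : ℝ) ^ (1 / (2 * (r : ℝ))) * A) :
    ∑ y : ZMod p, mult p A M N y * ‖shortSumC χ B y‖ ≤
      128 * ((r : ℝ) ^ (2 * r) + 2 * r) * ((1 + Real.log p) * burgessFn r p N) * (A * B) := by
  obtain ⟨K, hK⟩ : ∃ K : ℝ, K = (r : ℝ) ^ (2 * r) + 2 * r := ⟨_, rfl⟩
  rw [← hK]
  have hr1 : (1 : ℝ) ≤ r := Nat.one_le_cast.2 hr
  have hK1 : 1 ≤ K := by
    rw [hK]
    linarith [pow_nonneg (zero_le_one.trans hr1) (2 * r)]
  obtain ⟨L, hL⟩ : ∃ L, L = 1 + Real.log p := ⟨_, rfl⟩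
  rw [← hL]
  have hL1 : 1 ≤ L := hL ▸ one_le_log_factor p
  have hp0 : (0 : ℝ) < p := Nat.cast_pos.2 (by omega)
  have hAr : (1 : ℝ) ≤ A := Nat.one_le_cast.2 hA
  have hBr : (1 : ℝ) ≤ B := Nat.one_le_cast.2 hB1
  have hν : ∑ y : ZMod p, mult p A M N y ^ 2 ≤ 2 * (A * N * L ^ 2) := by
    refine (sum_mult_sq_le hAN2).trans ?_
    have h1 : (1 + Real.log A) ^ 2 ≤ L ^ 2 := by
      refine pow_le_pow_left₀ (by linarith [Real.log_natCast_nonneg A]) ?_ 2
      have := Real.log_le_log (show (0 : ℝ) < A by linarith) (Nat.cast_le.2 hAp.le)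
      linarith
    have h2 := mul_le_mul_of_nonneg_left h1 (show (0 : ℝ) ≤ A * N by positivity)
    have h3 : (A : ℝ) ^ 2 ≤ A * N := by
      rw [sq]
      exact mul_le_mul_of_nonneg_left (Nat.cast_le.2 hAN) (by linarith)
    have h4 : (A : ℝ) * N ≤ A * N * L ^ 2 :=
      le_mul_of_one_le_right (by positivity) (one_le_pow₀ hL1)
    linarith
  have hsqrt : Real.sqrt p ≤ (B : ℝ) ^ r := by
    refine le_trans (le_of_eq ?_) (pow_le_pow_left₀ (Real.rpow_nonneg hp0.le _) hBu r)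
    rw [← Real.rpow_natCast, ← Real.rpow_mul hp0.le, Real.sqrt_eq_rpow]
    congr 1
    field_simp
  have hmom : ∑ y : ZMod p, ‖shortSumC χ B y‖ ^ (2 * r) ≤
      K * (B : ℝ) ^ (2 * r) * Real.sqrt p := by
    refine (sum_norm_shortSumC_pow_le hχ hr hBp).trans ?_
    have h1 : (B : ℝ) ^ r * p ≤ (B : ℝ) ^ (2 * r) * Real.sqrt p := by
      have := mul_le_mul_of_nonneg_left (mul_le_mul_of_nonneg_right hsqrt (Real.sqrt_nonneg p))
        (pow_nonneg (zero_le_one.trans hBr) r)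
      rw [Real.mul_self_sqrt hp0.le, ← mul_assoc, ← pow_add, ← two_mul] at this
      exact this
    have h2 := mul_le_mul_of_nonneg_left h1 (show (0 : ℝ) ≤ (r : ℝ) ^ (2 * r) by positivity)
    rw [hK]
    linarith
  have hh := holder_pow (univ : Finset (ZMod p)) (mult p A M N) (fun y => ‖shortSumC χ B y‖)
    (fun y _ => Nat.cast_nonneg _) (fun y _ => norm_nonneg _) hr
  rw [sum_mult] at hh
  obtain ⟨G, hG⟩ : ∃ G, G = burgessFn r p N := ⟨_, rfl⟩
  have hG0 : 0 ≤ G := hG ▸ burgessFn_nonneg r p (Nat.cast_nonneg _)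
  rw [← hG]
  refine le_of_pow_le_pow_left₀ (n := 2 * r) (by omega) (by positivity) ?_
  refine hh.trans ((mul_le_mul (mul_le_mul_of_nonneg_left hν (by positivity)) hmom
    (sum_nonneg fun y _ => pow_nonneg (norm_nonneg _) _) (by positivity)).trans ?_)
  obtain ⟨u, hu⟩ : ∃ u : ℝ, u = (p : ℝ) ^ (1 / (2 * (r : ℝ))) := ⟨_, rfl⟩
  rw [← hu] at hNA hBu
  have hGp : G ^ (2 * r) = (N : ℝ) ^ (2 * r - 2) * (Real.sqrt p * u) := by
    rw [hG, burgessFn_pow hr p (Nat.cast_nonneg _), hu, Real.sqrt_eq_rpow, ← Real.rpow_add hp0]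
  rw [mul_pow (128 * K * (L * G)), mul_pow (128 * K), mul_pow L, hGp]
  obtain ⟨s, hs⟩ : ∃ s, 2 * r = s + 2 := ⟨2 * r - 2, by omega⟩
  rw [hs, Nat.add_sub_cancel]
  have hu0 : 0 ≤ u := hu ▸ Real.rpow_nonneg hp0.le _
  have hD : 128 * K ≤ (128 * K) ^ (s + 2) := le_self_pow₀ (by linarith) (by omega)
  have hLs : L ^ 2 ≤ L ^ (s + 2) := pow_le_pow_right₀ hL1 (by omega)
  have h1 : 2 * ((A : ℝ) * N * L ^ 2) * K ≤ 128 * K * L ^ 2 * (u * (A * A)) := by
    have := mul_le_mul_of_nonneg_left hNA (show (0 : ℝ) ≤ 2 * (A * L ^ 2) * K by positivity)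
    linarith
  have h2 : 128 * K * L ^ 2 * (u * ((A : ℝ) * A)) ≤
      (128 * K) ^ (s + 2) * L ^ (s + 2) * (u * (A * A)) :=
    mul_le_mul_of_nonneg_right (mul_le_mul hD hLs (by positivity) (by positivity)) (by positivity)
  have h3 := mul_le_mul_of_nonneg_left (h1.trans h2) (show (0 : ℝ) ≤
    ((A : ℝ) * N) ^ s * (B : ℝ) ^ (s + 2) * Real.sqrt p by positivity)
  refine le_trans (le_of_eq ?_) (h3.trans (le_of_eq ?_))
  · ring
  · ring

theorem sqrt_le_burgessFn {r : ℕ} (hr : 1 ≤ r) {p : ℕ} (hp : 0 < p) {x : ℝ}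
    (hx : (p : ℝ) ^ ((1 : ℝ) / 2 + 1 / (4 * (r : ℝ))) ≤ x) :
    Real.sqrt p ≤ burgessFn r p x := by
  have hp0 : (0 : ℝ) < p := Nat.cast_pos.2 hp
  refine le_trans (le_of_eq ?_) (burgessFn_mono hr p (Real.rpow_nonneg hp0.le _) hx)
  rw [burgessFn, ← Real.rpow_mul hp0.le, ← Real.rpow_add hp0, Real.sqrt_eq_rpow]
  congr 1
  have : (r : ℝ) ≠ 0 := Nat.cast_ne_zero.2 (by omega)
  field_simp
  ring

theorem burgess_step (hχ : χ ≠ 1) {r : ℕ} (hr : 2 ≤ r) {M N : ℕ}
    (hbig : 32 * (p : ℝ) ^ (1 / (2 * (r : ℝ))) < N) (hNp : N < p)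
    (hN : (N : ℝ) ≤ (p : ℝ) ^ ((1 : ℝ) / 2 + 1 / (4 * (r : ℝ))))
    (ih : ∀ M' N', N' < N → ‖windowSumC χ M' N'‖ ≤
      burgessConst r * ((1 + Real.log p) * burgessFn r p N')) :
    ‖windowSumC χ M N‖ ≤ burgessConst r * ((1 + Real.log p) * burgessFn r p N) := by
  obtain ⟨u, hu⟩ : ∃ u : ℝ, u = (p : ℝ) ^ (1 / (2 * (r : ℝ))) := ⟨_, rfl⟩
  rw [← hu] at hbig
  have hp1 : (1 : ℝ) ≤ p := Nat.one_le_cast.2 (by omega)
  have hr1 : (0 : ℝ) < r := Nat.cast_pos.2 (by omega)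
  have hu1 : 1 ≤ u := hu ▸ Real.one_le_rpow hp1 (by positivity)
  have hNr : (N : ℝ) < p := Nat.cast_lt.2 hNp
  obtain ⟨B, hB⟩ : ∃ B, B = ⌈u⌉₊ := ⟨_, rfl⟩
  have hBu : u ≤ B := hB ▸ Nat.le_ceil u
  have hB2 : (B : ℝ) ≤ 2 * u := by
    have := (Nat.ceil_lt_add_one (show 0 ≤ u by linarith)).le
    rw [← hB] at this
    linarith
  have hB1 : 1 ≤ B := hB ▸ Nat.one_le_iff_ne_zero.2 (Nat.ceil_pos.2 (by linarith)).ne'
  have hBr : (0 : ℝ) < B := by linarith
  have hBp : B < p := by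
    rw [← Nat.cast_lt (α := ℝ)]
    linarith
  obtain ⟨A, hA⟩ : ∃ A, A = ⌊(N : ℝ) / (16 * B)⌋₊ := ⟨_, rfl⟩
  have hone : 1 ≤ (N : ℝ) / (16 * B) := by
    rw [one_le_div (by linarith)]
    linarith
  have hA1 : 1 ≤ A := hA ▸ Nat.le_floor (by simpa using hone)
  have hAle : (A : ℝ) ≤ (N : ℝ) / (16 * B) := hA ▸ Nat.floor_le (zero_le_one.trans hone)
  have hAB : (A : ℝ) * B ≤ N / 16 := by
    refine (mul_le_mul_of_nonneg_right hAle hBr.le).trans (le_of_eq ?_)
    field_simp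
  have hAN : A ≤ N := by
    rw [← Nat.cast_le (α := ℝ)]
    have : (A : ℝ) ≤ A * B := le_mul_of_one_le_right (Nat.cast_nonneg _) (Nat.one_le_cast.2 hB1)
    linarith [Nat.cast_nonneg (α := ℝ) N]
  have hNA : (N : ℝ) ≤ 64 * u * A := by
    have h1 := Nat.lt_floor_add_one ((N : ℝ) / (16 * B))
    rw [← hA, div_lt_iff₀ (by linarith)] at h1
    have h2 : ((A : ℝ) + 1) * (16 * B) ≤ (2 * A) * (16 * (2 * u)) :=
      mul_le_mul (by linarith [show (1 : ℝ) ≤ A from Nat.one_le_cast.2 hA1]) (by linarith)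
        (by linarith) (by positivity)
    linarith
  have hAN2 : 2 * A * N < p := by
    rw [← Nat.cast_lt (α := ℝ)]
    push_cast
    have h1 : (N : ℝ) * N ≤ p * u := by
      refine (mul_le_mul hN hN (Nat.cast_nonneg _) (by positivity)).trans (le_of_eq ?_)
      rw [hu, ← Real.rpow_add (by linarith)]
      conv_rhs => rw [← Real.rpow_one_add' (by linarith) (by positivity)]
      congr 1
      field_simp
      ring
    have h2 : (A : ℝ) * N * (16 * B) ≤ N * N := by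
      rw [le_div_iff₀ (by linarith)] at hAle
      have := mul_le_mul_of_nonneg_right hAle (Nat.cast_nonneg (α := ℝ) N)
      linarith
    have h3 : (A : ℝ) * N * u ≤ A * N * B := mul_le_mul_of_nonneg_left hBu (by positivity)
    have h4 : (A : ℝ) * N * 16 * u ≤ p * u := by linarith
    have h5 := le_of_mul_le_mul_right h4 (by linarith)
    linarith
  obtain ⟨L, hL⟩ : ∃ L, L = 1 + Real.log p := ⟨_, rfl⟩
  rw [← hL] at ih ⊢
  have hL1 : 1 ≤ L := hL ▸ one_le_log_factor p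
  obtain ⟨G, hG⟩ : ∃ G, G = burgessFn r p N := ⟨_, rfl⟩
  have hG0 : 0 ≤ G := hG ▸ burgessFn_nonneg r p (Nat.cast_nonneg _)
  have hC : 0 ≤ burgessConst r := by rw [burgessConst]; positivity
  have hsmall : burgessFn r p ((N : ℝ) / 16) ≤ G / 4 := by
    rw [hG, burgessFn, burgessFn, Real.div_rpow (Nat.cast_nonneg _) (by norm_num),
      div_mul_eq_mul_div]
    refine div_le_div_of_nonneg_left (by positivity) (by norm_num) ?_
    calc (4 : ℝ) = (16 : ℝ) ^ ((1 : ℝ) / 2) := by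
          rw [← Real.sqrt_eq_rpow, show (16 : ℝ) = 4 ^ 2 by norm_num,
            Real.sqrt_sq (by norm_num)]
      _ ≤ _ := Real.rpow_le_rpow_of_exponent_le (by norm_num) (by
          have : (1 : ℝ) / r ≤ 1 / 2 := by
            gcongr
            exact_mod_cast hr
          linarith)
  have hE : ∀ K h, h ≤ A * B → ‖windowSumC χ K h‖ ≤ burgessConst r * (L * (G / 4)) := by
    intro K h hh
    have h1 : (h : ℝ) ≤ N / 16 := le_trans (by exact_mod_cast hh) hAB
    have h2 : h < N := by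
      rw [← Nat.cast_lt (α := ℝ)]
      linarith
    exact (ih K h h2).trans (mul_le_mul_of_nonneg_left (mul_le_mul_of_nonneg_left
      ((burgessFn_mono (by omega) p (Nat.cast_nonneg _) h1).trans hsmall) (by linarith)) hC)
  have hwin := window_le_multC (M := M) (N := N) (lt_of_le_of_lt hAN hNp) hE
  have hT := mult_shortSum_le (M := M) hχ (by omega : 1 ≤ r) hA1 hAN (lt_of_le_of_lt hAN hNp) hAN2
    hBp hB1 (hu ▸ hBu) (hu ▸ hNA)
  rw [← hL, ← hG] at hT
  rw [← hG]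
  have hAB0 : (0 : ℝ) < A * B := by positivity
  refine le_of_mul_le_mul_left (hwin.trans ((add_le_add hT le_rfl).trans ?_)) hAB0
  rw [burgessConst]
  have : 0 ≤ L * G * (A * B) := by positivity
  linarith

/-- **Burgess's inequality.** -/
theorem norm_windowSumC_le_burgess (hχ : χ ≠ 1) {r : ℕ} (hr : 1 ≤ r) (M N : ℕ) :
    ‖windowSumC χ M N‖ ≤ burgessConst r * ((1 + Real.log p) * burgessFn r p N) := by
  have hp := (Fact.out : p.Prime)
  have hp1 : (1 : ℝ) ≤ p := Nat.one_le_cast.2 hp.one_lt.le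
  have hC : 32 ≤ burgessConst r := le_add_of_nonneg_left (by positivity)
  have hsqrt : ∀ M' N' : ℕ, (p : ℝ) ^ ((1 : ℝ) / 2 + 1 / (4 * (r : ℝ))) ≤ N' ∨ r = 1 →
      ‖windowSumC χ M' N'‖ ≤ burgessConst r * ((1 + Real.log p) * burgessFn r p N') := by
    intro M' N' h
    have h1 : Real.sqrt p ≤ burgessFn r p N' := by
      rcases h with h | rfl
      · exact sqrt_le_burgessFn hr hp.pos h
      · rw [burgessFn, Nat.cast_one, div_one, sub_self, Real.rpow_zero, one_mul,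
          Real.sqrt_eq_rpow]
        norm_num
    refine (norm_windowSumC_le_sqrt hχ M' N').trans ?_
    rw [mul_comm (Real.sqrt p)]
    exact (mul_le_mul_of_nonneg_left h1 (by linarith [one_le_log_factor p])).trans
      (le_mul_of_one_le_left (mul_nonneg (by linarith [one_le_log_factor p])
        (burgessFn_nonneg r p (Nat.cast_nonneg _))) (by linarith))
  induction N using Nat.strong_induction_on generalizing M with
  | _ N ih =>
    rcases eq_or_lt_of_le hr with h1 | h1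
    · exact hsqrt M N (Or.inr h1.symm)
    by_cases hbig : 32 * (p : ℝ) ^ (1 / (2 * (r : ℝ))) < N
    · rcases lt_or_ge N p with hNp | hNp
      · by_cases hN : (N : ℝ) ≤ (p : ℝ) ^ ((1 : ℝ) / 2 + 1 / (4 * (r : ℝ)))
        · exact burgess_step hχ h1 hbig hNp hN fun M' N' h => ih N' h M'
        · exact hsqrt M N (Or.inl (not_le.1 hN).le)
      · obtain ⟨K, rfl⟩ : ∃ K, N = K + p := ⟨N - p, by omega⟩
        rw [windowSumC_add, windowSumC_period hχ, add_zero]
        refine (ih K (by have := hp.pos; omega) M).trans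
          (mul_le_mul_of_nonneg_left ?_ (by linarith))
        refine mul_le_mul_of_nonneg_left (burgessFn_mono hr p (Nat.cast_nonneg _) ?_)
          (by linarith [one_le_log_factor p])
        push_cast
        linarith
    · -- short windows: the trivial bound
      refine (norm_windowSumC_le M N).trans ?_
      rw [not_lt] at hbig
      have hr0 : (0 : ℝ) < r := Nat.cast_pos.2 (by omega)
      rcases Nat.eq_zero_or_pos N with rfl | hN0
      · simp only [Nat.cast_zero]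
        exact mul_nonneg (by linarith) (mul_nonneg (by linarith [one_le_log_factor p])
          (burgessFn_nonneg r p le_rfl))
      have hN0' : (0 : ℝ) < N := Nat.cast_pos.2 hN0
      have h2 : (N : ℝ) ^ (1 / (r : ℝ)) ≤ 32 * (p : ℝ) ^ (((r : ℝ) + 1) / (4 * (r : ℝ) ^ 2)) := by
        refine (Real.rpow_le_rpow hN0'.le hbig (by positivity)).trans ?_
        rw [Real.mul_rpow (by norm_num) (by positivity), ← Real.rpow_mul (by linarith)]
        refine mul_le_mul ?_ (Real.rpow_le_rpow_of_exponent_le hp1 ?_) (by positivity) (by norm_num)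
        · conv_rhs => rw [← Real.rpow_one 32]
          refine Real.rpow_le_rpow_of_exponent_le (by norm_num) ?_
          rw [div_le_one hr0]
          exact_mod_cast hr
        · rw [div_mul_div_comm, div_le_div_iff₀ (by positivity) (by positivity)]
          have : (2 : ℝ) ≤ r := by exact_mod_cast h1
          nlinarith
      have h3 : (N : ℝ) = (N : ℝ) ^ (1 - 1 / (r : ℝ)) * (N : ℝ) ^ (1 / (r : ℝ)) := by
        rw [← Real.rpow_add hN0', sub_add_cancel, Real.rpow_one]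
      calc (N : ℝ) = (N : ℝ) ^ (1 - 1 / (r : ℝ)) * (N : ℝ) ^ (1 / (r : ℝ)) := h3
        _ ≤ (N : ℝ) ^ (1 - 1 / (r : ℝ)) * (32 * (p : ℝ) ^ (((r : ℝ) + 1) / (4 * (r : ℝ) ^ 2))) :=
            mul_le_mul_of_nonneg_left h2 (by positivity)
        _ = 32 * burgessFn r p N := by rw [burgessFn]; ring
        _ ≤ burgessConst r * burgessFn r p N :=
            mul_le_mul_of_nonneg_right hC (burgessFn_nonneg r p (Nat.cast_nonneg _))
        _ ≤ _ := mul_le_mul_of_nonneg_left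
            (le_mul_of_one_le_left (burgessFn_nonneg r p (Nat.cast_nonneg _)) (one_le_log_factor p))
            (by linarith)

end FA.BurgessGeneral
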