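import Fermat.Agent.Burgess.Hoelder
import Fermat.Agent.CharacterSums.Points
import Fermat.Agent.Root.SummaryPolyaVinogradov

/-!
# Short sums of a character modulo a prime

The window sums `∑_{M < n ≤ M + N} χ n`, Burgess's averaging, and the moments of the short sums
`∑_{b ≤ B} χ (x + b)` by Weil's bound.
-/

set_option autoImplicit false

noncomputable section

namespace FA.BurgessGeneral

open Finset Polynomial FA.Burgess FA.CharacterSums
open scoped Classical

variable {p : ℕ} [Fact p.Prime] {χ : MulChar (ZMod p) ℂ}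

/-- `∑_{M < n ≤ M + N} χ n`. -/
def windowSumC (χ : MulChar (ZMod p) ℂ) (M N : ℕ) : ℂ := ∑ n ∈ Ioc M (M + N), χ (n : ZMod p)

/-- `∑_{b ≤ B} χ (x + b)`. -/
def shortSumC (χ : MulChar (ZMod p) ℂ) (B : ℕ) (x : ZMod p) : ℂ :=
  ∑ b ∈ Icc 1 B, χ (x + (b : ZMod p))

theorem norm_windowSumC_le (M N : ℕ) : ‖windowSumC χ M N‖ ≤ N := by
  refine (norm_sum_le_of_le _ fun n _ => norm_mulChar_le χ _).trans ?_
  simp

theorem windowSumC_add (M N K : ℕ) :
    windowSumC χ M (N + K) = windowSumC χ M N + windowSumC χ (M + N) K := by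
  simp only [windowSumC]
  rw [← add_assoc, ← sum_Ioc_consecutive _ (Nat.le_add_right M N) (Nat.le_add_right (M + N) K)]

theorem windowSumC_shift (M N h : ℕ) :
    ∑ n ∈ Ioc M (M + N), χ ((n + h : ℕ) : ZMod p) = windowSumC χ (M + h) N := by
  rw [windowSumC, show Ioc (M + h) (M + h + N) = (Ioc M (M + N)).map (addRightEmbedding h) by
    rw [map_add_right_Ioc, add_right_comm], sum_map]
  rfl

theorem windowSumC_period (hχ : χ ≠ 1) (M : ℕ) : windowSumC χ M p = 0 := by
  have hinj : Set.InjOn (fun n : ℕ => (n : ZMod p)) (Ioc M (M + p) : Finset ℕ) := by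
    intro a ha b hb h
    rw [mem_coe, mem_Ioc] at ha hb
    simp only [ZMod.natCast_eq_natCast_iff] at h
    rcases le_total a b with hle | hle
    · have h1 := (Nat.modEq_iff_dvd' hle).1 h
      have := Nat.eq_zero_of_dvd_of_lt h1 (by omega)
      omega
    · have h1 := (Nat.modEq_iff_dvd' hle).1 h.symm
      have := Nat.eq_zero_of_dvd_of_lt h1 (by omega)
      omega
  rw [windowSumC, ← sum_image (f := fun y : ZMod p => χ y) hinj,
    eq_univ_of_card ((Ioc M (M + p)).image fun n : ℕ => (n : ZMod p))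
      (by rw [card_image_of_injOn hinj, Nat.card_Ioc, ZMod.card, Nat.add_sub_cancel_left])]
  exact MulChar.sum_eq_zero_of_ne_one hχ

theorem norm_windowSumC_le_sqrt (hχ : χ ≠ 1) (M N : ℕ) :
    ‖windowSumC χ M N‖ ≤ Real.sqrt p * (1 + Real.log p) := by
  have h := FA.Summary.polyaVinogradov (Fact.out : p.Prime).one_lt
    (FA.OrderTheta.isPrimitive_of_ne_one p hχ) (M + 1 : ℤ) N
  refine le_trans (le_of_eq (congrArg _ ?_)) h
  rw [windowSumC, show Ioc M (M + N) = Ico (M + 1) (M + 1 + N) by ext; simp; omega,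
    sum_Ico_eq_sum_range, Nat.add_sub_cancel_left]
  refine sum_congr rfl fun i _ => ?_
  push_cast
  rfl

theorem window_le_multC {A B M N : ℕ} (hA : A < p) {E : ℝ}
    (hE : ∀ K h, h ≤ A * B → ‖windowSumC χ K h‖ ≤ E) :
    (A : ℝ) * B * ‖windowSumC χ M N‖ ≤
      ∑ y : ZMod p, mult p A M N y * ‖shortSumC χ B y‖ + (A : ℝ) * B * (2 * E) := by
  have hT : ∑ y : ZMod p, mult p A M N y * ‖shortSumC χ B y‖ =
      ∑ x ∈ pairBox A M N, ‖shortSumC χ B (quot p x)‖ := by
    rw [← sum_fiberwise (pairBox A M N) (quot p) fun x => ‖shortSumC χ B (quot p x)‖]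
    refine sum_congr rfl fun y _ => ?_
    rw [mult, ← nsmul_eq_mul, ← sum_const]
    exact sum_congr rfl fun x hx => by rw [(mem_filter.1 hx).2]
  have e : (A : ℂ) * B * windowSumC χ M N =
      ∑ a ∈ Icc 1 A, ∑ b ∈ Icc 1 B, windowSumC χ (M + a * b) N +
        ∑ a ∈ Icc 1 A, ∑ b ∈ Icc 1 B, (windowSumC χ M N - windowSumC χ (M + a * b) N) := by
    rw [← sum_add_distrib]
    simp only [← sum_add_distrib, add_sub_cancel, sum_const, Nat.card_Icc, Nat.add_sub_cancel,
      nsmul_eq_mul, mul_assoc]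
  have h1 : ‖∑ a ∈ Icc 1 A, ∑ b ∈ Icc 1 B, windowSumC χ (M + a * b) N‖ ≤
      ∑ x ∈ pairBox A M N, ‖shortSumC χ B (quot p x)‖ := by
    rw [pairBox, sum_product]
    refine norm_sum_le_of_le _ fun a ha => ?_
    rw [mem_Icc] at ha
    have ha0 := natCast_ne_zero_of_lt (p := p) ha.1 (ha.2.trans_lt hA)
    have e2 : ∑ b ∈ Icc 1 B, windowSumC χ (M + a * b) N =
        χ (a : ZMod p) * ∑ n ∈ Ioc M (M + N), shortSumC χ B (quot p (a, n)) := by
      simp only [← windowSumC_shift, shortSumC, mul_sum]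
      rw [sum_comm]
      refine sum_congr rfl fun n _ => sum_congr rfl fun b _ => ?_
      rw [← map_mul, quot, mul_add, mul_inv_cancel_left₀ ha0]
      push_cast
      rfl
    rw [e2, norm_mul]
    exact (mul_le_of_le_one_left (norm_nonneg _) (norm_mulChar_le χ _)).trans
      (norm_sum_le_of_le _ fun n _ => le_rfl)
  have h2 : ‖∑ a ∈ Icc 1 A, ∑ b ∈ Icc 1 B, (windowSumC χ M N - windowSumC χ (M + a * b) N)‖ ≤
      (A : ℝ) * B * (2 * E) := by
    refine (norm_sum_le_of_le _ (n := fun _ => (B : ℝ) * (2 * E)) fun a ha => ?_).trans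
      (le_of_eq ?_)
    · refine (norm_sum_le_of_le _ (n := fun _ => 2 * E) fun b hb => ?_).trans (le_of_eq (by simp))
      rw [mem_Icc] at ha hb
      have hab : a * b ≤ A * B := Nat.mul_le_mul ha.2 hb.2
      have i1 := windowSumC_add (χ := χ) M (a * b) N
      rw [add_comm (a * b) N, windowSumC_add (χ := χ) M N (a * b)] at i1
      rw [show windowSumC χ M N - windowSumC χ (M + a * b) N =
        windowSumC χ M (a * b) - windowSumC χ (M + N) (a * b) by linear_combination i1, two_mul]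
      exact (norm_sub_le _ _).trans (add_le_add (hE _ _ hab) (hE _ _ hab))
    · simp [mul_assoc]
  calc (A : ℝ) * B * ‖windowSumC χ M N‖ = ‖(A : ℂ) * B * windowSumC χ M N‖ := by
        rw [norm_mul, norm_mul, Complex.norm_natCast, Complex.norm_natCast]
    _ ≤ _ := by
      rw [e, hT]
      exact (norm_add_le _ _).trans (add_le_add h1 h2)

omit [Fact p.Prime] in
theorem conj_eq_pow (hχ : χ ≠ 1) (y : ZMod p) :
    (starRingEnd ℂ) (χ y) = χ y ^ (orderOf χ - 1) := by
  have h1 := χ.orderOf_pos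
  have h2 : orderOf χ ≠ 1 := fun e => hχ (orderOf_eq_one_iff.1 e)
  rw [← MulChar.pow_apply' _ (by omega), show χ ^ (orderOf χ - 1) = χ⁻¹ from
    eq_inv_of_mul_eq_one_left (by
      rw [← pow_succ, Nat.sub_add_cancel h1, pow_orderOf_eq_one])]
  exact MulChar.star_apply' χ y

/-- **The moment.** -/
theorem sum_norm_shortSumC_pow_le (hχ : χ ≠ 1) {B r : ℕ} (hr : 1 ≤ r) (hB : B < p) :
    ∑ x : ZMod p, ‖shortSumC χ B x‖ ^ (2 * r) ≤
      (r : ℝ) ^ (2 * r) * (B : ℝ) ^ r * p + 2 * r * (B : ℝ) ^ (2 * r) * Real.sqrt p := by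
  obtain ⟨d, hd⟩ : ∃ d, d = orderOf χ := ⟨_, rfl⟩
  have hd2 : 2 ≤ d := by
    have := χ.orderOf_pos
    have : orderOf χ ≠ 1 := fun e => hχ (orderOf_eq_one_iff.1 e)
    omega
  obtain ⟨e, he⟩ : ∃ e : ℕ → ℕ, e = fun i => if i < r then 1 else d - 1 := ⟨_, rfl⟩
  have hpow : ∀ x, ((‖shortSumC χ B x‖ ^ (2 * r) : ℝ) : ℂ) =
      ∑ t ∈ Fintype.piFinset (fun _ : Fin (2 * r) => Icc 1 B),
        χ ((∏ i : Fin (2 * r), (X + C ((t i : ℕ) : ZMod p)) ^ e i).eval x) := by
    intro x
    have h1 : ((‖shortSumC χ B x‖ ^ (2 * r) : ℝ) : ℂ) =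
        ∏ i : Fin (2 * r), ∑ b ∈ Icc 1 B, χ (x + (b : ZMod p)) ^ e i := by
      rw [Fin.prod_univ_eq_prod_range (fun i => ∑ b ∈ Icc 1 B, χ (x + (b : ZMod p)) ^ e i) (2 * r),
        two_mul, prod_range_add]
      have hA1 : ∀ i ∈ range r, ∑ b ∈ Icc 1 B, χ (x + (b : ZMod p)) ^ e i =
          shortSumC χ B x := fun i hi => by
        simp only [he, if_pos (mem_range.1 hi), pow_one, shortSumC]
      have hA2 : ∀ i ∈ range r, ∑ b ∈ Icc 1 B, χ (x + (b : ZMod p)) ^ e (r + i) =
          (starRingEnd ℂ) (shortSumC χ B x) := fun i _ => by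
        simp only [he, if_neg (not_lt.2 (Nat.le_add_right r i)), hd, ← conj_eq_pow hχ, shortSumC,
          map_sum]
      rw [prod_congr rfl hA1, prod_congr rfl hA2, prod_const, prod_const, card_range, ← mul_pow,
        Complex.mul_conj', ← pow_mul, ← two_mul, Complex.ofReal_pow]
    rw [h1, prod_univ_sum]
    refine sum_congr rfl fun t _ => ?_
    rw [eval_prod, map_prod]
    refine prod_congr rfl fun i _ => ?_
    rw [eval_pow, eval_add, eval_X, eval_C, map_pow]
  have hsum : ((∑ x : ZMod p, ‖shortSumC χ B x‖ ^ (2 * r) : ℝ) : ℂ) =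
      ∑ t ∈ Fintype.piFinset (fun _ : Fin (2 * r) => Icc 1 B),
        ∑ x : ZMod p, χ ((∏ i : Fin (2 * r), (X + C ((t i : ℕ) : ZMod p)) ^ e i).eval x) := by
    rw [Complex.ofReal_sum, sum_congr rfl fun x _ => hpow x, sum_comm]
  rw [← abs_of_nonneg (show 0 ≤ ∑ x : ZMod p, ‖shortSumC χ B x‖ ^ (2 * r) by positivity),
    ← Real.norm_eq_abs, ← Complex.norm_real, hsum]
  rw [← sum_filter_add_sum_filter_not _ fun t : Fin (2 * r) → ℕ => (univ.image t).card ≤ r]
  refine (norm_add_le _ _).trans (add_le_add ?_ ?_)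
  · refine (norm_sum_le_of_le _ (n := fun _ => (p : ℝ)) fun t _ => ?_).trans ?_
    · exact (norm_sum_le_of_le _ fun x _ => norm_mulChar_le χ _).trans (le_of_eq (by simp))
    · rw [sum_const, nsmul_eq_mul]
      refine mul_le_mul_of_nonneg_right ?_ (Nat.cast_nonneg _)
      have := (Nat.cast_le (α := ℝ)).2 (card_small_image_le B r hr)
      push_cast at this
      exact this
  · refine (norm_sum_le_of_le _ (n := fun _ => 2 * (r : ℝ) * Real.sqrt p) fun t ht => ?_).trans ?_
    · rw [mem_filter, Fintype.mem_piFinset] at ht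
      obtain ⟨g, hg⟩ : ∃ g : (ZMod p)[X],
          g = ∏ i : Fin (2 * r), (X + C ((t i : ℕ) : ZMod p)) ^ e i := ⟨_, rfl⟩
      rw [← hg]
      have hgm : g.Monic := hg ▸ monic_prod_of_monic _ _ fun i _ => (monic_X_add_C _).pow _
      have hroots : g.roots =
          ∑ i : Fin (2 * r), e i • ({-((t i : ℕ) : ZMod p)} : Multiset (ZMod p)) := by
        rw [hg, roots_prod _ _ (prod_ne_zero_iff.2 fun i _ => pow_ne_zero _ (X_add_C_ne_zero _))]
        simp only [roots_pow, roots_X_add_C]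
        rfl
      -- some value occurs only once
      obtain ⟨i₀, hi₀⟩ : ∃ i₀, ∀ i, t i = t i₀ → i = i₀ := by
        by_contra! h
        refine ht.2 ?_
        have h1 := card_nsmul_le_sum (univ.image t)
          (fun v => (univ.filter fun i => t i = v).card) 2 ?_
        · rw [← card_eq_sum_card_image, card_univ, Fintype.card_fin, smul_eq_mul] at h1
          omega
        · intro v hv
          obtain ⟨i, -, rfl⟩ := mem_image.1 hv
          obtain ⟨j, hj, hji⟩ := h i
          exact one_lt_card.2 ⟨j, by simp [hj], i, by simp, hji⟩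
      have hnd : Nondeg χ g := by
        refine (nondeg_iff_not_pow hgm).2 fun ⟨u, hu⟩ => ?_
        have h1 := congrArg (fun v : (ZMod p)[X] => v.roots.count (-((t i₀ : ℕ) : ZMod p))) hu
        simp only [hroots, Multiset.count_sum', Multiset.count_nsmul, Multiset.count_singleton,
          neg_inj, mul_ite, mul_one, mul_zero, roots_pow] at h1
        rw [sum_eq_single i₀ (fun i _ hi => if_neg fun h => hi (hi₀ i ?_))
          (fun h => absurd (mem_univ _) h), if_pos rfl, he] at h1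
        · simp only [← hd] at h1
          have h2 : d ∣ if (i₀ : ℕ) < r then 1 else d - 1 := ⟨_, h1⟩
          split_ifs at h2
          · exact absurd (Nat.le_of_dvd one_pos h2) (by omega)
          · exact absurd (Nat.le_of_dvd (by omega) h2) (by omega)
        · rw [ZMod.natCast_eq_natCast_iff', Nat.mod_eq_of_lt, Nat.mod_eq_of_lt] at h
          · exact h.symm
          · exact (mem_Icc.1 (ht.1 i)).2.trans_lt hB
          · exact (mem_Icc.1 (ht.1 i₀)).2.trans_lt hB
      have hcard : (g.aroots (AlgebraicClosure (ZMod p))).toFinset.card ≤ 2 * r := by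
        refine le_trans (card_le_card fun y hy => ?_) ((card_image_le (s := univ) (f := fun i =>
          algebraMap (ZMod p) (AlgebraicClosure (ZMod p)) (-((t i : ℕ) : ZMod p)))).trans (by simp))
        rw [Multiset.mem_toFinset, mem_aroots, hg, map_prod, prod_eq_zero_iff] at hy
        obtain ⟨-, i, -, hi⟩ := hy
        rw [map_pow] at hi
        have hi' := eq_zero_of_pow_eq_zero hi
        rw [map_add, aeval_X, aeval_C, ← eq_neg_iff_add_eq_zero] at hi'
        exact mem_image.2 ⟨i, mem_univ _, by rw [map_neg, hi']⟩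
      rw [card_aroots_eq_natDegree_radical hgm.ne_zero] at hcard
      refine (norm_sum_mulChar_le hnd).trans ?_
      rw [ZMod.card]
      refine mul_le_mul_of_nonneg_right ?_ (Real.sqrt_nonneg _)
      exact_mod_cast (Nat.sub_le _ _).trans hcard
    · rw [sum_const, nsmul_eq_mul]
      refine le_trans (mul_le_mul_of_nonneg_right (Nat.cast_le.2 (card_filter_le _ _))
        (by positivity)) (le_of_eq ?_)
      simp
      ring

end FA.BurgessGeneral
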